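import Mathlib

/-!
# GATE-F / GF-NORMDEPTH-ALG, file 4: deep principal units are `p`-th powers

`exists_pow_eq_of_val_sub_one_le` : `A` a field with a valuation `v`, `κ = v p < 1`,
`p ≠ 0` in `A`, sequentially `κ`-adically complete (`hcomp`) and archimedean (`harch`):
`v (x - 1) ≤ κ ^ 3` implies `x = y ^ p` with `v (y - 1) ≤ κ`.  (Newton iteration; the sharp
bound `p v(p)/(p-1)` is not needed for the depth iteration.)

`exists_pow_eq_of_norm_sub_one_le` : the instance for a complete ultrametric normed field.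
-/

namespace Fermat.Agent.GF.NormDepth

section Abstract

variable {A : Type*} [Field A] {Γ₀ : Type*} [LinearOrderedCommGroupWithZero Γ₀]

theorem val_natCast_le_one (v : Valuation A Γ₀) (n : ℕ) : v (n : A) ≤ 1 := by
  induction n with
  | zero => simp
  | succ n ih =>
    rw [Nat.cast_succ]
    exact v.map_add_le ih (by rw [map_one])

/-- crude binomial estimate: `(1 + t) ^ p = 1 + p t + s` with `v s ≤ v t ^ 2`. -/
theorem exists_one_add_pow_eq (v : Valuation A Γ₀) {t : A} (ht : v t ≤ 1) (p : ℕ) :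
    ∃ s : A, (1 + t) ^ p = 1 + (p : A) * t + s ∧ v s ≤ v t ^ 2 := by
  induction p with
  | zero => exact ⟨0, by simp, by simp⟩
  | succ p ih =>
    obtain ⟨s, hs, hvs⟩ := ih
    refine ⟨(p : A) * t ^ 2 + s + s * t, ?_, ?_⟩
    · rw [pow_succ, hs, Nat.cast_succ]
      ring
    · refine v.map_add_le (v.map_add_le ?_ hvs) ?_
      · rw [map_mul, map_pow]
        calc v (p : A) * v t ^ 2 ≤ 1 * v t ^ 2 := mul_le_mul' (val_natCast_le_one v p) le_rfl
          _ = v t ^ 2 := one_mul _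
      · rw [map_mul]
        calc v s * v t ≤ v t ^ 2 * 1 := mul_le_mul' hvs ht
          _ = v t ^ 2 := mul_one _

theorem val_pow_sub_pow_le (v : Valuation A Γ₀) {a b : A} (ha : v a ≤ 1) (hb : v b ≤ 1)
    (p : ℕ) : v (a ^ p - b ^ p) ≤ v (a - b) := by
  induction p with
  | zero => simp
  | succ p ih =>
    have : a ^ (p + 1) - b ^ (p + 1) = a * (a ^ p - b ^ p) + (a - b) * b ^ p := by ring
    rw [this]
    refine v.map_add_le ?_ ?_
    · rw [map_mul]
      calc v a * v (a ^ p - b ^ p) ≤ 1 * v (a - b) := mul_le_mul' ha ih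
        _ = v (a - b) := one_mul _
    · rw [map_mul, map_pow]
      calc v (a - b) * v b ^ p ≤ v (a - b) * 1 := mul_le_mul' le_rfl (pow_le_one' hb p)
        _ = v (a - b) := mul_one _

/-- The Newton sequence for `y ^ p = x` starting at `1`. -/
noncomputable def newtonSeq (p : ℕ) (x : A) : ℕ → A
  | 0 => 1
  | n + 1 => newtonSeq p x n * (1 + (x - newtonSeq p x n ^ p) / ((p : A) * newtonSeq p x n ^ p))

theorem newtonSeq_zero (p : ℕ) (x : A) : newtonSeq p x 0 = 1 := rfl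

theorem newtonSeq_succ (p : ℕ) (x : A) (n : ℕ) :
    newtonSeq p x (n + 1) =
      newtonSeq p x n * (1 + (x - newtonSeq p x n ^ p) / ((p : A) * newtonSeq p x n ^ p)) := rfl

theorem newtonSeq_spec (v : Valuation A Γ₀) {p : ℕ} (hp0 : (p : A) ≠ 0) (hκ : v (p : A) < 1)
    {x : A} (hx : v (x - 1) ≤ v (p : A) ^ 3) (n : ℕ) :
    v (newtonSeq p x n - 1) ≤ v (p : A) ∧
      v (x - newtonSeq p x n ^ p) ≤ v (p : A) ^ (n + 3) ∧
      v (newtonSeq p x (n + 1) - newtonSeq p x n) ≤ v (p : A) ^ (n + 2) := by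
  set κ := v (p : A) with hκdef
  have hκ0 : κ ≠ 0 := (Valuation.ne_zero_iff v).mpr hp0
  have hκ1 : κ ≤ 1 := hκ.le
  -- the step
  have step : ∀ y : A, v (y - 1) ≤ κ → ∀ m : ℕ, v (x - y ^ p) ≤ κ ^ (m + 3) →
      v (y * (1 + (x - y ^ p) / ((p : A) * y ^ p)) - y) ≤ κ ^ (m + 2) ∧
      v (y * (1 + (x - y ^ p) / ((p : A) * y ^ p)) - 1) ≤ κ ∧
      v (x - (y * (1 + (x - y ^ p) / ((p : A) * y ^ p))) ^ p) ≤ κ ^ (m + 1 + 3) := by
    intro y hy m hm
    have hvy : v y = 1 := by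
      have : y = 1 + (y - 1) := by ring
      rw [this]
      exact Valuation.map_one_add_of_lt v (lt_of_le_of_lt hy hκ)
    have hy0 : y ≠ 0 := by
      intro h
      rw [h, map_zero] at hvy
      exact zero_ne_one hvy
    have hyp0 : (p : A) * y ^ p ≠ 0 := mul_ne_zero hp0 (pow_ne_zero _ hy0)
    set t := (x - y ^ p) / ((p : A) * y ^ p) with ht
    have hvt : v t ≤ κ ^ (m + 2) := by
      rw [ht, map_div₀, map_mul, map_pow, hvy, one_pow, mul_one, div_le_iff₀ (zero_lt_iff.mpr hκ0)]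
      calc v (x - y ^ p) ≤ κ ^ (m + 3) := hm
        _ = κ ^ (m + 2) * κ := by rw [← pow_succ]
    have hvt1 : v t ≤ 1 := hvt.trans (pow_le_one' hκ1 _)
    obtain ⟨s, hs, hvs⟩ := exists_one_add_pow_eq v hvt1 p
    have hpt : y ^ p * ((p : A) * t) = x - y ^ p := by
      rw [ht]
      field_simp
    have h1 : v (y * (1 + t) - y) ≤ κ ^ (m + 2) := by
      have : y * (1 + t) - y = y * t := by ring
      rw [this, map_mul, hvy, one_mul]
      exact hvt
    refine ⟨h1, ?_, ?_⟩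
    · have : y * (1 + t) - 1 = (y * (1 + t) - y) + (y - 1) := by ring
      rw [this]
      refine v.map_add_le (h1.trans ?_) hy
      calc κ ^ (m + 2) ≤ κ ^ 1 := pow_le_pow_right_of_le_one' hκ1 (by omega)
        _ = κ := pow_one κ
    · have : x - (y * (1 + t)) ^ p = - (y ^ p * s) := by
        rw [mul_pow, hs, mul_add, mul_add, mul_one, hpt]
        ring
      rw [this, Valuation.map_neg, map_mul, map_pow, hvy, one_pow, one_mul]
      calc v s ≤ v t ^ 2 := hvs
        _ ≤ (κ ^ (m + 2)) ^ 2 := pow_le_pow_left' hvt 2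
        _ = κ ^ (2 * m + 4) := by rw [← pow_mul]; congr 1; ring
        _ ≤ κ ^ (m + 1 + 3) := pow_le_pow_right_of_le_one' hκ1 (by omega)
  induction n with
  | zero =>
    have h0 : v (x - newtonSeq p x 0 ^ p) ≤ κ ^ (0 + 3) := by
      rw [newtonSeq_zero, one_pow]
      exact hx
    have hy0 : v (newtonSeq p x 0 - 1) ≤ κ := by
      rw [newtonSeq_zero, sub_self, map_zero]
      exact zero_le
    refine ⟨hy0, h0, ?_⟩
    rw [newtonSeq_succ]
    exact (step _ hy0 0 h0).1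
  | succ n ih =>
    obtain ⟨hy, hm, -⟩ := ih
    obtain ⟨-, h2, h3⟩ := step _ hy n hm
    rw [← newtonSeq_succ] at h2 h3
    refine ⟨h2, h3, ?_⟩
    rw [newtonSeq_succ p x (n + 1)]
    exact (step _ h2 (n + 1) h3).1

/-- **Deep principal units are `p`-th powers** (abstract completeness hypothesis). -/
theorem exists_pow_eq_of_val_sub_one_le (v : Valuation A Γ₀) {p : ℕ} (hp0 : (p : A) ≠ 0)
    (hκ : v (p : A) < 1)
    (hcomp : ∀ u : ℕ → A, (∀ n, v (u (n + 1) - u n) ≤ v (p : A) ^ n) →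
      ∃ y, ∀ n, v (y - u n) ≤ v (p : A) ^ n)
    (harch : ∀ γ : Γ₀, γ ≠ 0 → ∃ n : ℕ, v (p : A) ^ n < γ)
    {x : A} (hx : v (x - 1) ≤ v (p : A) ^ 3) :
    ∃ y : A, y ^ p = x ∧ v (y - 1) ≤ v (p : A) := by
  set κ := v (p : A) with hκdef
  have hκ1 : κ ≤ 1 := hκ.le
  have hspec := newtonSeq_spec v hp0 hκ hx
  obtain ⟨y, hy⟩ := hcomp (newtonSeq p x) (fun n =>
    ((hspec n).2.2).trans (pow_le_pow_right_of_le_one' hκ1 (by omega)))
  have hvy : v y ≤ 1 := by
    have : y = (y - newtonSeq p x 0) + 1 := by rw [newtonSeq_zero]; ring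
    rw [this]
    refine v.map_add_le ?_ (by rw [map_one])
    simpa using hy 0
  have hvyn : ∀ n, v (newtonSeq p x n) ≤ 1 := by
    intro n
    have : newtonSeq p x n = (newtonSeq p x n - 1) + 1 := by ring
    rw [this]
    exact v.map_add_le ((hspec n).1.trans hκ1) (by rw [map_one])
  have hall : ∀ n, v (x - y ^ p) ≤ κ ^ n := by
    intro n
    have : x - y ^ p = (x - newtonSeq p x n ^ p) - (y ^ p - newtonSeq p x n ^ p) := by ring
    rw [this]
    refine v.map_sub_le ?_ ?_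
    · exact (hspec n).2.1.trans (pow_le_pow_right_of_le_one' hκ1 (by omega))
    · exact (val_pow_sub_pow_le v hvy (hvyn n) p).trans (hy n)
  refine ⟨y, ?_, ?_⟩
  · by_contra hne
    have hne' : x - y ^ p ≠ 0 := fun h => hne (sub_eq_zero.mp h).symm
    obtain ⟨n, hn⟩ := harch (v (x - y ^ p)) ((Valuation.ne_zero_iff v).mpr hne')
    exact absurd (hall n) (not_le.mpr hn)
  · have : y - 1 = (y - newtonSeq p x 1) + (newtonSeq p x 1 - 1) := by ring
    rw [this]
    refine v.map_add_le ?_ (hspec 1).1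
    simpa using hy 1

/-- Unit version, in the shape consumed by `isPow_of_gain`. -/
theorem exists_unit_pow_eq_of_val_sub_one_le (v : Valuation A Γ₀) {p : ℕ} (hp0 : (p : A) ≠ 0)
    (hκ : v (p : A) < 1)
    (hcomp : ∀ u : ℕ → A, (∀ n, v (u (n + 1) - u n) ≤ v (p : A) ^ n) →
      ∃ y, ∀ n, v (y - u n) ≤ v (p : A) ^ n)
    (harch : ∀ γ : Γ₀, γ ≠ 0 → ∃ n : ℕ, v (p : A) ^ n < γ)
    (x : Aˣ) (hx : v ((x : A) - 1) ≤ v (p : A) ^ 3) :
    ∃ y : Aˣ, y ^ p = x := by
  obtain ⟨y, hy, -⟩ := exists_pow_eq_of_val_sub_one_le v hp0 hκ hcomp harch hx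
  have hy0 : y ≠ 0 := by
    intro h
    have hp1 : p ≠ 0 := by
      rintro rfl
      exact hp0 Nat.cast_zero
    rw [h, zero_pow hp1] at hy
    exact x.ne_zero hy.symm
  refine ⟨Units.mk0 y hy0, ?_⟩
  ext
  simpa using hy

end Abstract

section Normed

variable {A : Type*} [NormedField A] [IsUltrametricDist A] [CompleteSpace A]

omit [CompleteSpace A] in
/-- ultrametric telescoping -/
theorem norm_sub_le_of_succ_le {u : ℕ → A} {κ : ℝ} (hκ1 : κ ≤ 1) (hκ0 : 0 ≤ κ)
    (hu : ∀ n, ‖u (n + 1) - u n‖ ≤ κ ^ n) (n m : ℕ) (hnm : n ≤ m) :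
    ‖u m - u n‖ ≤ κ ^ n := by
  induction m, hnm using Nat.le_induction with
  | base => simpa using pow_nonneg hκ0 n
  | succ m hnm ih =>
    have : u (m + 1) - u n = (u (m + 1) - u m) + (u m - u n) := by ring
    rw [this]
    refine (IsUltrametricDist.norm_add_le_max _ _).trans (max_le ?_ ih)
    exact (hu m).trans (pow_le_pow_of_le_one hκ0 hκ1 hnm)

/-- sequential completeness of a complete ultrametric normed field, in the form used above -/
theorem exists_lim_of_succ_le {u : ℕ → A} {κ : ℝ} (hκ1 : κ < 1) (hκ0 : 0 ≤ κ)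
    (hu : ∀ n, ‖u (n + 1) - u n‖ ≤ κ ^ n) :
    ∃ y : A, ∀ n, ‖y - u n‖ ≤ κ ^ n := by
  have hc : CauchySeq u := by
    refine cauchySeq_of_le_geometric κ 1 hκ1 (fun n => ?_)
    rw [dist_comm, dist_eq_norm, one_mul]
    exact hu n
  obtain ⟨y, hy⟩ := cauchySeq_tendsto_of_complete hc
  refine ⟨y, fun n => ?_⟩
  have hlim : Filter.Tendsto (fun m => ‖u m - u n‖) Filter.atTop (nhds ‖y - u n‖) :=
    (hy.sub tendsto_const_nhds).norm
  refine le_of_tendsto hlim ?_
  filter_upwards [Filter.eventually_ge_atTop n] with m hm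
  exact norm_sub_le_of_succ_le hκ1.le hκ0 hu n m hm

/-- **Deep principal units are `p`-th powers** in a complete ultrametric normed field. -/
theorem exists_pow_eq_of_norm_sub_one_le {p : ℕ} (hp0 : (p : A) ≠ 0) (hκ : ‖(p : A)‖ < 1)
    {x : A} (hx : ‖x - 1‖ ≤ ‖(p : A)‖ ^ 3) :
    ∃ y : A, y ^ p = x ∧ ‖y - 1‖ ≤ ‖(p : A)‖ := by
  have hval : ∀ a : A, ((NormedField.valuation (K := A) a : NNReal) : ℝ) = ‖a‖ := fun a => rfl
  have hle : ∀ (a : A) (n : ℕ), NormedField.valuation (K := A) a ≤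
      NormedField.valuation (K := A) (p : A) ^ n ↔ ‖a‖ ≤ ‖(p : A)‖ ^ n := by
    intro a n
    rw [← NNReal.coe_le_coe, NNReal.coe_pow, hval, hval]
  obtain ⟨y, hy, hy1⟩ := exists_pow_eq_of_val_sub_one_le (NormedField.valuation (K := A)) hp0
    (by rw [← NNReal.coe_lt_coe, hval]; simpa using hκ)
    (by
      intro u hu
      obtain ⟨y, hy⟩ := exists_lim_of_succ_le (u := u) hκ (norm_nonneg _)
        (fun n => (hle _ n).mp (hu n))
      exact ⟨y, fun n => (hle _ n).mpr (hy n)⟩)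
    (by
      intro γ hγ
      have hγ' : (0 : ℝ) < γ := by
        have : (0 : NNReal) < γ := pos_iff_ne_zero.mpr hγ
        exact_mod_cast this
      obtain ⟨n, hn⟩ := exists_pow_lt_of_lt_one hγ' hκ
      refine ⟨n, ?_⟩
      rw [← NNReal.coe_lt_coe, NNReal.coe_pow, hval]
      exact hn)
    ((hle _ 3).mpr hx)
  refine ⟨y, hy, ?_⟩
  have := (hle (y - 1) 1).mp (by simpa using hy1)
  simpa using this

end Normed

end Fermat.Agent.GF.NormDepth
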