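import Fermat.Agent.GF.NormDepth.Iterate

/-!
# GATE-F / GF-NORMDEPTH-ALG, file 7: completion-free form of the depth iteration

`exists_deep_rep_of_gain` : with the hypotheses of `isPow_of_gain` but WITHOUT any `p`-th power
criterion (no completeness), `ξ` has, for every `n`, a representative modulo `p`-th powers of
depth `≤ ε ^ n * δ₀`.

`gain_inv` : if `T` gains depth then so does `x ↦ (T x)⁻¹` (for the sign `U = -1` in
`U w = ± w`).
-/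

namespace Fermat.Agent.GF.NormDepth

variable {A : Type*} [Field A] {Γ₀ : Type*} [LinearOrderedCommGroupWithZero Γ₀]

/-- **Deep representatives.** `ξ = T ξ * c ^ p`, `T` gains depth by `ε` below `δ₀`, and
`v (ξ - 1) ≤ δ₀`: for every `n` there is `z` with `ξ = z * d ^ p` and `v (z - 1) ≤ ε ^ n * δ₀`. -/
theorem exists_deep_rep_of_gain (v : Valuation A Γ₀) (p : ℕ) (T : Aˣ →* Aˣ) {ε δ₀ : Γ₀}
    (hε : ε ≤ 1)
    (hgain : ∀ x : Aˣ, v ((x : A) - 1) ≤ δ₀ → v ((T x : A) - 1) ≤ ε * v ((x : A) - 1))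
    (ξ : Aˣ) (h0 : v ((ξ : A) - 1) ≤ δ₀) (hξ : ∃ c : Aˣ, ξ = T ξ * c ^ p) (n : ℕ) :
    ∃ z d : Aˣ, ξ = z * d ^ p ∧ v ((z : A) - 1) ≤ ε ^ n * δ₀ := by
  have key : ∀ n : ℕ, ∃ z : Aˣ, v ((z : A) - 1) ≤ ε ^ n * δ₀ ∧
      (∃ c : Aˣ, z = T z * c ^ p) ∧ ∃ d : Aˣ, ξ = z * d ^ p := by
    intro n
    induction n with
    | zero => exact ⟨ξ, by simpa using h0, hξ, 1, by simp⟩
    | succ n ih =>
      obtain ⟨z, hz, ⟨c, hc⟩, d, hd⟩ := ih
      have hεn : ε ^ n ≤ 1 := pow_le_one' hε n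
      have hzδ : v ((z : A) - 1) ≤ δ₀ :=
        hz.trans (by simpa using mul_le_mul' hεn (le_refl δ₀))
      refine ⟨T z, ?_, ⟨T c, ?_⟩, c * d, ?_⟩
      · calc v ((T z : A) - 1) ≤ ε * v ((z : A) - 1) := hgain z hzδ
          _ ≤ ε * (ε ^ n * δ₀) := mul_le_mul' le_rfl hz
          _ = ε ^ (n + 1) * δ₀ := by rw [pow_succ', mul_assoc]
      · rw [← map_pow, ← map_mul, ← hc]
      · rw [hd]
        nth_rw 1 [hc]
        rw [mul_pow, mul_assoc]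
  obtain ⟨z, hz, -, d, hd⟩ := key n
  exact ⟨z, d, hd, hz⟩

/-- For a unit `u` with `v u = 1`: `v (u⁻¹ - 1) = v (u - 1)`. -/
theorem val_inv_sub_one (v : Valuation A Γ₀) (u : Aˣ) (hu : v (u : A) = 1) :
    v (((u⁻¹ : Aˣ) : A) - 1) = v ((u : A) - 1) := by
  have h : ((u⁻¹ : Aˣ) : A) - 1 = - (((u⁻¹ : Aˣ) : A) * ((u : A) - 1)) := by
    rw [mul_sub, mul_one, Units.inv_mul]
    ring
  rw [h, Valuation.map_neg, map_mul, Units.val_inv_eq_inv_val, map_inv₀, hu, inv_one, one_mul]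

/-- If `T` gains depth below `δ₀ < 1`, so does `x ↦ (T x)⁻¹`. -/
theorem gain_inv (v : Valuation A Γ₀) (T : Aˣ →* Aˣ) {ε δ₀ : Γ₀} (hε : ε ≤ 1) (hδ₀ : δ₀ < 1)
    (hgain : ∀ x : Aˣ, v ((x : A) - 1) ≤ δ₀ → v ((T x : A) - 1) ≤ ε * v ((x : A) - 1))
    (x : Aˣ) (hx : v ((x : A) - 1) ≤ δ₀) :
    v (((T⁻¹) x : A) - 1) ≤ ε * v ((x : A) - 1) := by
  have h1 := hgain x hx
  have hlt : v ((T x : A) - 1) < 1 := by
    refine lt_of_le_of_lt (h1.trans ?_) hδ₀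
    calc ε * v ((x : A) - 1) ≤ 1 * δ₀ := mul_le_mul' hε hx
      _ = δ₀ := one_mul _
  have hu : v (T x : A) = 1 := by
    have : (T x : A) = 1 + ((T x : A) - 1) := by ring
    rw [this]
    exact Valuation.map_one_add_of_lt v hlt
  rw [MonoidHom.inv_apply, val_inv_sub_one v (T x) hu]
  exact h1

end Fermat.Agent.GF.NormDepth
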