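import Mathlib
import Fermat.Agent.GF.NormDepth.DeepRep

/-!
# GATE-F / GF-NORMDEPTH-CONST: the depth iteration carrying a constant, inside a subgroup

Requested by the `K'`-rational `U`-iteration (board 6222 §2 (b)): the relation is
`ξ = b * c ^ p * T ξ` with a "constant" `b` (instead of `ξ = T ξ * c ^ p`), the start is a
factorisation `ξ = a₀ * z₀ * d₀ ^ p` with `z₀` of depth `0`, and everything has to stay inside a
`T`-stable subgroup `S` (the `K'`-rational units).  The only property of constants that is used: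
`T b` and `T a₀` are `p`-th powers (`T a = a ^ (p ^ 2) = (a ^ p) ^ p` for `T = U ∘ U`).

Conclusion: for every `n`, `ξ = b * z * d ^ p` with `z, d ∈ S` and `z` of depth `n + 1`
(the constant is `b` ITSELF: `a_{n+1} = b * T a_n ≡ b` modulo `p`-th powers).

* `exists_deep_rep_const_abstract` : abstract commutative group, depth predicate `D n`;
* `exists_deep_rep_const_abstract_carry` : the cruder form carrying a constant `a_n` in a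
  `T`-stable subgroup `C` (no `p`-th power hypothesis);
* `exists_deep_rep_of_ideal_gain_const(_mem)` : chain of ideals of a commutative ring;
* `exists_deep_rep_of_gain_const(_mem)` : valuation form (`v (z - 1) ≤ ε ^ (n + 1) * δ₀`).
-/

namespace Fermat.Agent.GF.NormDepth

section Abstract

variable {G : Type*} [CommGroup G]

/-- **Abstract iteration with a constant**, inside a `T`-stable subgroup `S`. -/
theorem exists_deep_rep_const_abstract (p : ℕ) (T : G →* G) (S : Subgroup G)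
    (hS : ∀ x ∈ S, T x ∈ S) (D : ℕ → G → Prop)
    (hgain : ∀ (n : ℕ) (x : G), x ∈ S → D n x → D (n + 1) (T x))
    (ξ b c : G) (hcS : c ∈ S) (hξ : ξ = b * c ^ p * T ξ) (hb : ∃ e ∈ S, T b = e ^ p)
    (a₀ z₀ d₀ : G) (hz₀S : z₀ ∈ S) (hd₀S : d₀ ∈ S) (ha₀ : ∃ e ∈ S, T a₀ = e ^ p)
    (h0 : ξ = a₀ * z₀ * d₀ ^ p) (hz₀ : D 0 z₀) (n : ℕ) :
    ∃ z ∈ S, ∃ d ∈ S, ξ = b * z * d ^ p ∧ D (n + 1) z := by
  obtain ⟨eb, hebS, heb⟩ := hb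
  obtain ⟨e₀, he₀S, he₀⟩ := ha₀
  induction n with
  | zero =>
    refine ⟨T z₀, hS _ hz₀S, c * e₀ * T d₀, S.mul_mem (S.mul_mem hcS he₀S) (hS _ hd₀S), ?_,
      hgain 0 z₀ hz₀S hz₀⟩
    have hT : T ξ = e₀ ^ p * T z₀ * T d₀ ^ p := by
      rw [h0, map_mul, map_mul, map_pow, he₀]
    rw [mul_pow, mul_pow]
    nth_rw 1 [hξ]
    rw [hT]
    simp only [mul_assoc, mul_left_comm]
  | succ n ih =>
    obtain ⟨z, hzS, d, hdS, hzd, hz⟩ := ih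
    refine ⟨T z, hS _ hzS, c * eb * T d, S.mul_mem (S.mul_mem hcS hebS) (hS _ hdS), ?_,
      hgain (n + 1) z hzS hz⟩
    have hT : T ξ = eb ^ p * T z * T d ^ p := by
      rw [hzd, map_mul, map_mul, map_pow, heb]
    rw [mul_pow, mul_pow]
    nth_rw 1 [hξ]
    rw [hT]
    simp only [mul_assoc, mul_left_comm]

/-- **Cruder form**: no `p`-th power hypothesis, the constant `a_n` varies in a `T`-stable
subgroup `C` (`a_{n+1} = b * T a_n`). -/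
theorem exists_deep_rep_const_abstract_carry (p : ℕ) (T : G →* G) (S C : Subgroup G)
    (hS : ∀ x ∈ S, T x ∈ S) (hC : ∀ x ∈ C, T x ∈ C) (D : ℕ → G → Prop)
    (hgain : ∀ (n : ℕ) (x : G), x ∈ S → D n x → D (n + 1) (T x))
    (ξ b c : G) (hbC : b ∈ C) (hcS : c ∈ S) (hξ : ξ = b * c ^ p * T ξ)
    (a₀ z₀ d₀ : G) (ha₀C : a₀ ∈ C) (hz₀S : z₀ ∈ S) (hd₀S : d₀ ∈ S)
    (h0 : ξ = a₀ * z₀ * d₀ ^ p) (hz₀ : D 0 z₀) (n : ℕ) :
    ∃ a ∈ C, ∃ z ∈ S, ∃ d ∈ S, ξ = a * z * d ^ p ∧ D n z := by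
  induction n with
  | zero => exact ⟨a₀, ha₀C, z₀, hz₀S, d₀, hd₀S, h0, hz₀⟩
  | succ n ih =>
    obtain ⟨a, haC, z, hzS, d, hdS, hzd, hz⟩ := ih
    refine ⟨b * T a, C.mul_mem hbC (hC _ haC), T z, hS _ hzS, c * T d,
      S.mul_mem hcS (hS _ hdS), ?_, hgain n z hzS hz⟩
    have hT : T ξ = T a * T z * T d ^ p := by
      rw [hzd, map_mul, map_mul, map_pow]
    rw [mul_pow]
    nth_rw 1 [hξ]
    rw [hT]
    simp only [mul_assoc, mul_comm, mul_left_comm]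

end Abstract

section IdealForm

variable {R : Type*} [CommRing R]

/-- **Iteration along a chain of ideals, with a constant, inside a subgroup.** -/
theorem exists_deep_rep_of_ideal_gain_const_mem (p : ℕ) (T : Rˣ →* Rˣ) (S : Subgroup Rˣ)
    (hS : ∀ x ∈ S, T x ∈ S) (I : ℕ → Ideal R)
    (hgain : ∀ (n : ℕ) (x : Rˣ), x ∈ S → (x : R) - 1 ∈ I n → ((T x : Rˣ) : R) - 1 ∈ I (n + 1))
    (ξ b c : Rˣ) (hcS : c ∈ S) (hξ : ξ = b * c ^ p * T ξ) (hb : ∃ e ∈ S, T b = e ^ p)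
    (a₀ z₀ d₀ : Rˣ) (hz₀S : z₀ ∈ S) (hd₀S : d₀ ∈ S) (ha₀ : ∃ e ∈ S, T a₀ = e ^ p)
    (h0 : ξ = a₀ * z₀ * d₀ ^ p) (hz₀ : (z₀ : R) - 1 ∈ I 0) (n : ℕ) :
    ∃ z ∈ S, ∃ d ∈ S, ξ = b * z * d ^ p ∧ (z : R) - 1 ∈ I (n + 1) :=
  exists_deep_rep_const_abstract p T S hS (fun n x => (x : R) - 1 ∈ I n) hgain ξ b c hcS hξ hb
    a₀ z₀ d₀ hz₀S hd₀S ha₀ h0 hz₀ n

/-- **Iteration along a chain of ideals, with a constant** (`S = ⊤`): `ξ = b * c ^ p * T ξ`,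
`ξ = a₀ * z₀ * d₀ ^ p`, `z₀ ∈ 1 + I 0`, `T b`, `T a₀` `p`-th powers: for every `n`,
`ξ = b * z * d ^ p` with `z ∈ 1 + I (n + 1)`. -/
theorem exists_deep_rep_of_ideal_gain_const (p : ℕ) (T : Rˣ →* Rˣ) (I : ℕ → Ideal R)
    (hgain : ∀ (n : ℕ) (x : Rˣ), (x : R) - 1 ∈ I n → ((T x : Rˣ) : R) - 1 ∈ I (n + 1))
    (ξ b c : Rˣ) (hξ : ξ = b * c ^ p * T ξ) (hb : ∃ e : Rˣ, T b = e ^ p)
    (a₀ z₀ d₀ : Rˣ) (ha₀ : ∃ e : Rˣ, T a₀ = e ^ p)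
    (h0 : ξ = a₀ * z₀ * d₀ ^ p) (hz₀ : (z₀ : R) - 1 ∈ I 0) (n : ℕ) :
    ∃ z d : Rˣ, ξ = b * z * d ^ p ∧ (z : R) - 1 ∈ I (n + 1) := by
  obtain ⟨eb, heb⟩ := hb
  obtain ⟨e₀, he₀⟩ := ha₀
  obtain ⟨z, -, d, -, h1, h2⟩ := exists_deep_rep_of_ideal_gain_const_mem p T ⊤
    (fun _ _ => Subgroup.mem_top _) I (fun n x _ hx => hgain n x hx) ξ b c (Subgroup.mem_top _)
    hξ ⟨eb, Subgroup.mem_top _, heb⟩ a₀ z₀ d₀ (Subgroup.mem_top _) (Subgroup.mem_top _)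
    ⟨e₀, Subgroup.mem_top _, he₀⟩ h0 hz₀ n
  exact ⟨z, d, h1, h2⟩

end IdealForm

section ValuationForm

variable {A : Type*} [Field A] {Γ₀ : Type*} [LinearOrderedCommGroupWithZero Γ₀]

/-- **Deep representatives with a constant, inside a subgroup, valuation form.** -/
theorem exists_deep_rep_of_gain_const_mem (v : Valuation A Γ₀) (p : ℕ) (T : Aˣ →* Aˣ)
    (S : Subgroup Aˣ) (hS : ∀ x ∈ S, T x ∈ S) {ε δ₀ : Γ₀} (hε : ε ≤ 1)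
    (hgain : ∀ x : Aˣ, x ∈ S → v ((x : A) - 1) ≤ δ₀ →
      v ((T x : A) - 1) ≤ ε * v ((x : A) - 1))
    (ξ b c : Aˣ) (hcS : c ∈ S) (hξ : ξ = b * c ^ p * T ξ) (hb : ∃ e ∈ S, T b = e ^ p)
    (a₀ z₀ d₀ : Aˣ) (hz₀S : z₀ ∈ S) (hd₀S : d₀ ∈ S) (ha₀ : ∃ e ∈ S, T a₀ = e ^ p)
    (h0 : ξ = a₀ * z₀ * d₀ ^ p) (hz₀ : v ((z₀ : A) - 1) ≤ δ₀) (n : ℕ) :
    ∃ z ∈ S, ∃ d ∈ S, ξ = b * z * d ^ p ∧ v ((z : A) - 1) ≤ ε ^ (n + 1) * δ₀ := by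
  refine exists_deep_rep_const_abstract p T S hS (fun n x => v ((x : A) - 1) ≤ ε ^ n * δ₀) ?_
    ξ b c hcS hξ hb a₀ z₀ d₀ hz₀S hd₀S ha₀ h0 (by simpa using hz₀) n
  intro n x hxS hx
  have hεn : ε ^ n ≤ 1 := pow_le_one' hε n
  have hxδ : v ((x : A) - 1) ≤ δ₀ := hx.trans (by simpa using mul_le_mul' hεn (le_refl δ₀))
  calc v ((T x : A) - 1) ≤ ε * v ((x : A) - 1) := hgain x hxS hxδ
    _ ≤ ε * (ε ^ n * δ₀) := mul_le_mul' le_rfl hx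
    _ = ε ^ (n + 1) * δ₀ := by rw [pow_succ', mul_assoc]

/-- **Deep representatives with a constant, valuation form** (`S = ⊤`). -/
theorem exists_deep_rep_of_gain_const (v : Valuation A Γ₀) (p : ℕ) (T : Aˣ →* Aˣ)
    {ε δ₀ : Γ₀} (hε : ε ≤ 1)
    (hgain : ∀ x : Aˣ, v ((x : A) - 1) ≤ δ₀ → v ((T x : A) - 1) ≤ ε * v ((x : A) - 1))
    (ξ b c : Aˣ) (hξ : ξ = b * c ^ p * T ξ) (hb : ∃ e : Aˣ, T b = e ^ p)
    (a₀ z₀ d₀ : Aˣ) (ha₀ : ∃ e : Aˣ, T a₀ = e ^ p)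
    (h0 : ξ = a₀ * z₀ * d₀ ^ p) (hz₀ : v ((z₀ : A) - 1) ≤ δ₀) (n : ℕ) :
    ∃ z d : Aˣ, ξ = b * z * d ^ p ∧ v ((z : A) - 1) ≤ ε ^ (n + 1) * δ₀ := by
  obtain ⟨eb, heb⟩ := hb
  obtain ⟨e₀, he₀⟩ := ha₀
  obtain ⟨z, -, d, -, h1, h2⟩ := exists_deep_rep_of_gain_const_mem v p T ⊤
    (fun _ _ => Subgroup.mem_top _) hε (fun x _ hx => hgain x hx) ξ b c (Subgroup.mem_top _)
    hξ ⟨eb, Subgroup.mem_top _, heb⟩ a₀ z₀ d₀ (Subgroup.mem_top _) (Subgroup.mem_top _)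
    ⟨e₀, Subgroup.mem_top _, he₀⟩ h0 hz₀ n
  exact ⟨z, d, h1, h2⟩

end ValuationForm

end Fermat.Agent.GF.NormDepth
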