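import Mathlib

/-!
# GATE-F / GF-NORMDEPTH-ALG, file 8: ideal-theoretic (coefficientwise) forms

For the `U`-route (GRAPH v1.1 §3): the multiplicative `U` on `q`-expansions is
`y ↦ ∏_b y(ζ^b s)`; working coefficientwise in a ring of series with integral coefficients, the
depth statements are statements about ideals, with no valuation on the ring of series.

* `prod_one_add_sub_one_sub_sum_mem` : `x b ∈ I` ⟹ `∏ (1 + x b) - 1 - ∑ x b ∈ I ^ 2`.
* `prod_one_add_sub_one_mem` : if moreover `∑ x b ∈ J` then `∏ (1 + x b) - 1 ∈ J ⊔ I ^ 2`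
  (`I = (π^j)`, `J = (p π^j)` : depth `min (2j) (j + p - 1)`).
* `exists_deep_rep_of_ideal_gain` : the iteration along a chain of ideals.
-/

namespace Fermat.Agent.GF.NormDepth

open Finset

section Prod

variable {R : Type*} [CommRing R] {ι : Type*}

theorem prod_one_add_sub_one_sub_sum_mem (I : Ideal R) (s : Finset ι) (x : ι → R)
    (hx : ∀ b ∈ s, x b ∈ I) :
    ∏ b ∈ s, (1 + x b) - 1 - ∑ b ∈ s, x b ∈ I ^ 2 := by
  classical
  induction s using Finset.induction_on with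
  | empty => simp
  | insert a s ha ih =>
    have hxs : ∀ b ∈ s, x b ∈ I := fun b hb => hx b (mem_insert_of_mem hb)
    have hxa : x a ∈ I := hx a (mem_insert_self a s)
    have ih' := ih hxs
    have hsum : ∑ b ∈ s, x b ∈ I := I.sum_mem hxs
    have hP : ∏ b ∈ s, (1 + x b) - 1 ∈ I := by
      have : ∏ b ∈ s, (1 + x b) - 1 =
          (∏ b ∈ s, (1 + x b) - 1 - ∑ b ∈ s, x b) + ∑ b ∈ s, x b := by ring
      rw [this]
      exact I.add_mem (Ideal.pow_le_self two_ne_zero ih') hsum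
    rw [prod_insert ha, sum_insert ha]
    have : (1 + x a) * ∏ b ∈ s, (1 + x b) - 1 - (x a + ∑ b ∈ s, x b) =
        (∏ b ∈ s, (1 + x b) - 1 - ∑ b ∈ s, x b) + x a * (∏ b ∈ s, (1 + x b) - 1) := by ring
    rw [this]
    refine (I ^ 2).add_mem ih' ?_
    rw [sq]
    exact Ideal.mul_mem_mul hxa hP

/-- **Crude `U`-depth lemma, ideal form.** -/
theorem prod_one_add_sub_one_mem (I J : Ideal R) (s : Finset ι) (x : ι → R)
    (hx : ∀ b ∈ s, x b ∈ I) (hsum : ∑ b ∈ s, x b ∈ J) :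
    ∏ b ∈ s, (1 + x b) - 1 ∈ J ⊔ I ^ 2 := by
  have h := prod_one_add_sub_one_sub_sum_mem I s x hx
  have : ∏ b ∈ s, (1 + x b) - 1 =
      ∑ b ∈ s, x b + (∏ b ∈ s, (1 + x b) - 1 - ∑ b ∈ s, x b) := by ring
  rw [this]
  exact Submodule.add_mem_sup hsum h

/-- principal form: `x b ∈ (π^j)`, `∑ x b ∈ (p π^j)`, `π^(p-1) ∣ p`, `1 ≤ j`:
`∏ (1 + x b) - 1 ∈ (π^(j+1))`. -/
theorem prod_one_add_sub_one_mem_span_pow_succ (π : R) (P : R) {m : ℕ} (hm : 1 ≤ m)
    (hP : π ^ m ∣ P) {j : ℕ} (hj : 1 ≤ j) (s : Finset ι) (x : ι → R)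
    (hx : ∀ b ∈ s, π ^ j ∣ x b) (hsum : P * π ^ j ∣ ∑ b ∈ s, x b) :
    π ^ (j + 1) ∣ ∏ b ∈ s, (1 + x b) - 1 := by
  have h := prod_one_add_sub_one_mem (Ideal.span {π ^ j}) (Ideal.span {P * π ^ j}) s x
    (fun b hb => Ideal.mem_span_singleton.mpr (hx b hb)) (Ideal.mem_span_singleton.mpr hsum)
  have hle : Ideal.span {P * π ^ j} ⊔ Ideal.span {π ^ j} ^ 2 ≤ Ideal.span {π ^ (j + 1)} := by
    refine sup_le ?_ ?_
    · rw [Ideal.span_singleton_le_span_singleton]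
      obtain ⟨c, hc⟩ := hP
      refine ⟨c * π ^ (m - 1), ?_⟩
      rw [hc]
      have : π ^ m = π ^ (m - 1) * π := by rw [← pow_succ]; congr 1; omega
      rw [this, pow_succ]
      ring
    · rw [Ideal.span_singleton_pow, Ideal.span_singleton_le_span_singleton, ← pow_mul]
      exact pow_dvd_pow π (by nlinarith)
  exact Ideal.mem_span_singleton.mp (hle h)

end Prod

section Iterate

variable {R : Type*} [CommRing R]

/-- **Iteration along a chain of ideals.** `T` multiplicative on the units of `R`,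
`T (1 + I n) ⊆ 1 + I (n + 1)`, `ξ ∈ 1 + I 0`, `ξ = T ξ * c ^ p`: for every `n`, `ξ = z * d ^ p`
with `z ∈ 1 + I n`. -/
theorem exists_deep_rep_of_ideal_gain (p : ℕ) (T : Rˣ →* Rˣ) (I : ℕ → Ideal R)
    (hgain : ∀ (n : ℕ) (x : Rˣ), (x : R) - 1 ∈ I n → ((T x : Rˣ) : R) - 1 ∈ I (n + 1))
    (ξ : Rˣ) (h0 : (ξ : R) - 1 ∈ I 0) (hξ : ∃ c : Rˣ, ξ = T ξ * c ^ p) (n : ℕ) :
    ∃ z d : Rˣ, ξ = z * d ^ p ∧ (z : R) - 1 ∈ I n := by
  have key : ∀ n : ℕ, ∃ z : Rˣ, (z : R) - 1 ∈ I n ∧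
      (∃ c : Rˣ, z = T z * c ^ p) ∧ ∃ d : Rˣ, ξ = z * d ^ p := by
    intro n
    induction n with
    | zero => exact ⟨ξ, h0, hξ, 1, by simp⟩
    | succ n ih =>
      obtain ⟨z, hz, ⟨c, hc⟩, d, hd⟩ := ih
      refine ⟨T z, hgain n z hz, ⟨T c, ?_⟩, c * d, ?_⟩
      · rw [← map_pow, ← map_mul, ← hc]
      · rw [hd]
        nth_rw 1 [hc]
        rw [mul_pow, mul_assoc]
  obtain ⟨z, hz, -, d, hd⟩ := key n
  exact ⟨z, d, hd, hz⟩

end Iterate

end Fermat.Agent.GF.NormDepth
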