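import Mathlib

/-!
# GATE-F / GF-NORMDEPTH-ALG, file 3: the depth iteration

`isPow_of_gain` : a multiplicative self-map `T` of `Aˣ` that gains depth by a factor `ε`,
a `p`-th power criterion below depth `θ`, the archimedean hypothesis `ε ^ n * δ₀ ≤ θ`,
and `ξ = T ξ * c ^ p` with `v (ξ - 1) ≤ δ₀` force `ξ` to be a `p`-th power.

`isPow_of_pingpong` : the two-field form (`ξ_A * n₁ ξ_B` and `ξ_B * n₂ ξ_A` are `p`-th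
powers) used for the two completions of the level `p M'` function field.
-/

namespace Fermat.Agent.GF.NormDepth

section Single

variable {A : Type*} [Field A] {Γ₀ : Type*} [LinearOrderedCommGroupWithZero Γ₀]

/-- **Depth iteration.** -/
theorem isPow_of_gain (v : Valuation A Γ₀) (p : ℕ) (T : Aˣ →* Aˣ) {ε θ δ₀ : Γ₀}
    (hε : ε ≤ 1) (harch : ∃ n : ℕ, ε ^ n * δ₀ ≤ θ)
    (hpow : ∀ x : Aˣ, v ((x : A) - 1) ≤ θ → ∃ y : Aˣ, y ^ p = x)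
    (hgain : ∀ x : Aˣ, v ((x : A) - 1) ≤ δ₀ → v ((T x : A) - 1) ≤ ε * v ((x : A) - 1))
    (ξ : Aˣ) (h0 : v ((ξ : A) - 1) ≤ δ₀) (hξ : ∃ c : Aˣ, ξ = T ξ * c ^ p) :
    ∃ y : Aˣ, y ^ p = ξ := by
  have key : ∀ n : ℕ, ∃ z : Aˣ, v ((z : A) - 1) ≤ ε ^ n * δ₀ ∧
      (∃ c : Aˣ, z = T z * c ^ p) ∧ ∃ d : Aˣ, ξ = z * d ^ p := by
    intro n
    induction n with
    | zero => exact ⟨ξ, by simpa using h0, hξ, 1, by simp⟩
    | succ n ih =>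
      obtain ⟨z, hz, ⟨c, hc⟩, d, hd⟩ := ih
      have hεn : ε ^ n ≤ 1 := pow_le_one' hε n
      have hzδ : v ((z : A) - 1) ≤ δ₀ :=
        hz.trans (by simpa using mul_le_mul' hεn (le_refl δ₀))
      refine ⟨T z, ?_, ⟨T c, ?_⟩, c * d, ?_⟩
      · calc v ((T z : A) - 1) ≤ ε * v ((z : A) - 1) := hgain z hzδ
          _ ≤ ε * (ε ^ n * δ₀) := mul_le_mul' le_rfl hz
          _ = ε ^ (n + 1) * δ₀ := by rw [pow_succ', mul_assoc]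
      · rw [← map_pow, ← map_mul, ← hc]
      · rw [hd]
        nth_rw 1 [hc]
        rw [mul_pow, mul_assoc]
  obtain ⟨n, hn⟩ := harch
  obtain ⟨z, hz, -, d, hd⟩ := key n
  obtain ⟨y, hy⟩ := hpow z (hz.trans hn)
  exact ⟨y * d, by rw [mul_pow, hy, hd]⟩

end Single

section PingPong

variable {A B : Type*} [Field A] [Field B] {Γ₀ : Type*} [LinearOrderedCommGroupWithZero Γ₀]

/-- **Ping-pong form.** Two valued fields `A`, `B`, multiplicative maps `n₁ : Bˣ → Aˣ`,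
`n₂ : Aˣ → Bˣ` gaining depth by `ε`; if `ξ_A * n₁ ξ_B` and `ξ_B * n₂ ξ_A` are `p`-th
powers and `ξ_A`, `ξ_B` have depth `≤ δ₀`, then `ξ_A` and `ξ_B` are `p`-th powers.
Only a `p`-th power criterion in `A` is needed. -/
theorem isPow_of_pingpong (vA : Valuation A Γ₀) (vB : Valuation B Γ₀) (p : ℕ)
    (n₁ : Bˣ →* Aˣ) (n₂ : Aˣ →* Bˣ) {ε θ δ₀ : Γ₀} (hε : ε ≤ 1)
    (harch : ∃ n : ℕ, (ε * ε) ^ n * δ₀ ≤ θ)
    (hpow : ∀ x : Aˣ, vA ((x : A) - 1) ≤ θ → ∃ y : Aˣ, y ^ p = x)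
    (hg₁ : ∀ b : Bˣ, vB ((b : B) - 1) ≤ δ₀ → vA ((n₁ b : A) - 1) ≤ ε * vB ((b : B) - 1))
    (hg₂ : ∀ a : Aˣ, vA ((a : A) - 1) ≤ δ₀ → vB ((n₂ a : B) - 1) ≤ ε * vA ((a : A) - 1))
    (ξA : Aˣ) (ξB : Bˣ) (hA0 : vA ((ξA : A) - 1) ≤ δ₀)
    (hA : ∃ a : Aˣ, ξA * n₁ ξB = a ^ p) (hB : ∃ b : Bˣ, ξB * n₂ ξA = b ^ p) :
    (∃ y : Aˣ, y ^ p = ξA) ∧ ∃ y : Bˣ, y ^ p = ξB := by
  obtain ⟨a, ha⟩ := hA
  obtain ⟨b, hb⟩ := hB
  have hξB : ξB = (n₂ ξA)⁻¹ * b ^ p := by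
    rw [← hb, mul_comm ξB, ← mul_assoc, inv_mul_cancel, one_mul]
  have hstep : ∃ c : Aˣ, ξA = (n₁.comp n₂) ξA * c ^ p := by
    refine ⟨a * (n₁ b)⁻¹, ?_⟩
    have h1 : n₁ ξB = ((n₁.comp n₂) ξA)⁻¹ * (n₁ b) ^ p := by
      rw [hξB, map_mul, map_inv, map_pow, MonoidHom.comp_apply]
    have h2 : ξA = a ^ p * (n₁ ξB)⁻¹ := by
      rw [← ha, mul_assoc, mul_inv_cancel, mul_one]
    calc ξA = a ^ p * (n₁ ξB)⁻¹ := h2
      _ = a ^ p * (((n₁.comp n₂) ξA)⁻¹ * (n₁ b) ^ p)⁻¹ := by rw [h1]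
      _ = (n₁.comp n₂) ξA * (a * (n₁ b)⁻¹) ^ p := by
        rw [mul_inv, inv_inv, mul_pow, inv_pow, mul_comm (a ^ p), mul_assoc,
          mul_comm ((n₁ b ^ p)⁻¹)]
  have hgain : ∀ x : Aˣ, vA ((x : A) - 1) ≤ δ₀ →
      vA (((n₁.comp n₂) x : A) - 1) ≤ (ε * ε) * vA ((x : A) - 1) := by
    intro x hx
    have h2 := hg₂ x hx
    have h2' : vB ((n₂ x : B) - 1) ≤ δ₀ :=
      h2.trans ((mul_le_mul' hε hx).trans (by rw [one_mul]))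
    calc vA (((n₁.comp n₂) x : A) - 1) ≤ ε * vB ((n₂ x : B) - 1) := hg₁ _ h2'
      _ ≤ ε * (ε * vA ((x : A) - 1)) := mul_le_mul' le_rfl h2
      _ = (ε * ε) * vA ((x : A) - 1) := (mul_assoc _ _ _).symm
  have hεε : ε * ε ≤ 1 := by simpa using mul_le_mul' hε hε
  obtain ⟨y, hy⟩ := isPow_of_gain vA p (n₁.comp n₂) hεε harch hpow hgain ξA hA0 hstep
  refine ⟨⟨y, hy⟩, (n₂ y)⁻¹ * b, ?_⟩
  rw [hξB, mul_pow, inv_pow, ← map_pow, hy]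

end PingPong

end Fermat.Agent.GF.NormDepth
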