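import Fermat.Agent.GF.NormDepth.Newton

/-!
# GATE-F / GF-NORMDEPTH-ALG, file 5: traces of powers of a generator

`F = E(θ)` finite separable, `g` the minimal polynomial of `θ`, of degree `p`, with
`g ≡ Y ^ p - c (mod μ)`, i.e. the middle coefficients have `v ≤ κ`, the constant coefficient
is integral and `v p ≤ κ`.  Then `v (Tr (θ ^ k)) ≤ κ` for all `k`
(`val_trace_gen_pow_le`), and with a valuation-basis hypothesis
`v (Tr x) ≤ κ * vF x` for all `x : F` (`val_trace_le_of_valBasis`), which is the
input `(H_T)` of `val_norm_one_add_sub_one_le_of_trace`.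
-/

namespace Fermat.Agent.GF.NormDepth

open Finset Polynomial

section Reverse

variable {R : Type*} [CommRing R] {Γ₀ : Type*} [LinearOrderedCommGroupWithZero Γ₀]

theorem val_natCast_le_one_ring (v : Valuation R Γ₀) (n : ℕ) : v (n : R) ≤ 1 := by
  induction n with
  | zero => simp
  | succ n ih =>
    rw [Nat.cast_succ]
    exact v.map_add_le ih (by rw [map_one])

/-- Newton's recursion read backwards: integral `e`'s with `v (k * e k) ≤ κ` give
power sums with `v (P k) ≤ κ`. -/
theorem val_psum_le_of_newton (v : Valuation R Γ₀) {K : ℕ} {e P : ℕ → R}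
    (h : IsNewton K e P) {κ : Γ₀} (he : ∀ i, v (e i) ≤ 1)
    (hke : ∀ k : ℕ, 1 ≤ k → k ≤ K → v ((k : R) * e k) ≤ κ) :
    ∀ k : ℕ, 1 ≤ k → k ≤ K → v (P k) ≤ κ := by
  intro k
  induction k using Nat.strong_induction_on with
  | _ k ih =>
    intro hk1 hkK
    have hrec := h.2 k hk1 hkK
    set S := (antidiagonal k).filter (fun a : ℕ × ℕ => a.1 < k) with hS
    set f : ℕ × ℕ → R := fun a => (-1) ^ a.1 * e a.1 * P a.2 with hf
    have hmem : ((0, k) : ℕ × ℕ) ∈ S := by
      rw [hS, mem_filter, Finset.HasAntidiagonal.mem_antidiagonal]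
      exact ⟨by simp, hk1⟩
    have hsplit := Finset.add_sum_erase S f hmem
    have hf0 : f (0, k) = P k := by
      simp only [hf, pow_zero, one_mul, h.1]
    have hsum : ∑ a ∈ S, f a = (-1) ^ (k + 1) * ((k : R) * e k) := by
      rw [hrec, ← mul_assoc, ← pow_add]
      have : Even (k + 1 + (k + 1)) := ⟨k + 1, rfl⟩
      rw [this.neg_one_pow, one_mul]
    have hPk : P k = (-1) ^ (k + 1) * ((k : R) * e k) - ∑ a ∈ S.erase (0, k), f a := by
      rw [← hsum, ← hsplit, hf0, add_sub_cancel_right]
    rw [hPk]
    refine v.map_sub_le ?_ ?_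
    · rw [map_mul, val_neg_one_pow, one_mul]
      exact hke k hk1 hkK
    · refine Valuation.map_sum_le v ?_
      rintro ⟨i, j⟩ hij
      rw [mem_erase, hS, mem_filter, Finset.HasAntidiagonal.mem_antidiagonal] at hij
      obtain ⟨hne, hsum', hlt⟩ := hij
      simp only at hsum' hlt
      have hi : 1 ≤ i := by
        rcases Nat.eq_zero_or_pos i with rfl | hi
        · exact absurd (by rw [zero_add] at hsum'; rw [hsum']) hne
        · exact hi
      have hj1 : 1 ≤ j := by omega
      have hjk : j < k := by omega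
      simp only [hf]
      rw [map_mul, map_mul, val_neg_one_pow, one_mul]
      calc v (e i) * v (P j) ≤ 1 * κ := mul_le_mul' (he i) (ih j hjk hj1 (hjk.le.trans hkK))
        _ = κ := one_mul _

end Reverse

section Field

variable {E F : Type*} [Field E] [Field F] [Algebra E F] [FiniteDimensional E F]
  [Algebra.IsSeparable E F]
variable {Γ₀ : Type*} [LinearOrderedCommGroupWithZero Γ₀]

/-- The signed coefficient sequence `e_i = (-1)^i * coeff (deg - i)` of a polynomial. -/
noncomputable def coeffSeq (g : E[X]) (i : ℕ) : E :=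
  if i ≤ g.natDegree then (-1) ^ i * g.coeff (g.natDegree - i) else 0

theorem map_gen_embeddings_eq_aroots (pb : PowerBasis E F) (Ω : Type*) [Field Ω] [Algebra E Ω]
    [IsAlgClosed Ω] :
    (Finset.univ : Finset (F →ₐ[E] Ω)).val.map (fun σ => σ pb.gen) =
      (minpoly E pb.gen).aroots Ω := by
  classical
  have h1 : ((Finset.univ : Finset (F →ₐ[E] Ω)).val.map (fun σ => σ pb.gen)).Nodup :=
    Multiset.Nodup.map (fun σ τ hστ => pb.algHom_ext hστ) Finset.univ.nodup
  have h2 : ((minpoly E pb.gen).aroots Ω).Nodup :=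
    nodup_roots (Polynomial.Separable.map (Algebra.IsSeparable.isSeparable E pb.gen))
  refine (Multiset.Nodup.ext h1 h2).mpr fun a => ?_
  rw [Multiset.mem_map, mem_aroots]
  constructor
  · rintro ⟨σ, -, rfl⟩
    refine ⟨minpoly.ne_zero pb.isIntegral_gen, ?_⟩
    rw [Polynomial.aeval_algHom_apply, minpoly.aeval, map_zero]
  · rintro ⟨-, ha⟩
    exact ⟨pb.lift a ha, Finset.mem_univ _, pb.lift_gen a ha⟩

theorem card_embeddings_eq_natDegree (pb : PowerBasis E F) (Ω : Type*) [Field Ω] [Algebra E Ω]
    [IsAlgClosed Ω] :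
    Fintype.card (F →ₐ[E] Ω) = (minpoly E pb.gen).natDegree := by
  rw [AlgHom.card, pb.finrank, pb.natDegree_minpoly]

/-- Vieta for the conjugates of a generator. -/
theorem esymmVal_embeddings_eq (pb : PowerBasis E F) (Ω : Type*) [Field Ω] [Algebra E Ω]
    [IsAlgClosed Ω] (k : ℕ) :
    esymmVal (fun σ : F →ₐ[E] Ω => σ pb.gen) k =
      algebraMap E Ω (coeffSeq (minpoly E pb.gen) k) := by
  classical
  set g := minpoly E pb.gen with hg
  by_cases hk : k ≤ g.natDegree
  · have hmonic : (g.map (algebraMap E Ω)).Monic := (minpoly.monic pb.isIntegral_gen).map _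
    have hdeg : (g.map (algebraMap E Ω)).natDegree = g.natDegree := natDegree_map _
    have hV := Polynomial.coeff_eq_esymm_roots_of_splits
      (IsAlgClosed.splits (g.map (algebraMap E Ω))) (k := g.natDegree - k)
      (by rw [hdeg]; exact Nat.sub_le _ _)
    rw [hmonic.leadingCoeff, one_mul, hdeg, Nat.sub_sub_self hk, coeff_map] at hV
    have hroots : (g.map (algebraMap E Ω)).roots =
        (Finset.univ : Finset (F →ₐ[E] Ω)).val.map (fun σ => σ pb.gen) :=
      (map_gen_embeddings_eq_aroots pb Ω).symm
    rw [hroots, Finset.esymm_map_val] at hV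
    unfold coeffSeq esymmVal
    rw [if_pos hk, map_mul, map_pow, map_neg, map_one, hV, ← mul_assoc, ← pow_add]
    have : Even (k + k) := ⟨k, rfl⟩
    rw [this.neg_one_pow, one_mul]
  · unfold coeffSeq esymmVal
    rw [if_neg hk, map_zero]
    have hcard : (Finset.univ : Finset (F →ₐ[E] Ω)).card < k := by
      rw [Finset.card_univ, card_embeddings_eq_natDegree pb Ω]
      exact not_le.mp hk
    rw [Finset.powersetCard_eq_empty.mpr hcard, Finset.sum_empty]

/-- **Newton's identities between the coefficients of the minimal polynomial of a generator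
and the traces of its powers**, in the base field. -/
theorem isNewton_trace_gen_pow (pb : PowerBasis E F) (K : ℕ) :
    IsNewton K (coeffSeq (minpoly E pb.gen)) (fun k => Algebra.trace E F (pb.gen ^ k)) := by
  classical
  let Ω := AlgebraicClosure E
  let x : (F →ₐ[E] Ω) → Ω := fun σ => σ pb.gen
  have hN := isNewton_family x K
  have hps : ∀ j, psumVal x j = algebraMap E Ω (Algebra.trace E F (pb.gen ^ j)) := by
    intro j
    rw [trace_eq_sum_embeddings Ω]
    simp [psumVal, x, map_pow]
  have hes : ∀ k, esymmVal x k = algebraMap E Ω (coeffSeq (minpoly E pb.gen) k) :=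
    esymmVal_embeddings_eq pb Ω
  have hinj : Function.Injective (algebraMap E Ω) := (algebraMap E Ω).injective
  refine ⟨?_, ?_⟩
  · apply hinj
    rw [← hes 0, hN.1, map_one]
  · intro k hk1 hkK
    apply hinj
    have hrec := hN.2 k hk1 hkK
    rw [map_mul, map_natCast, ← hes k, hrec, map_mul, map_pow, map_neg, map_one, map_sum]
    congr 1
    refine Finset.sum_congr rfl ?_
    rintro ⟨i, j⟩ _
    rw [map_mul, map_mul, map_pow, map_neg, map_one, hes i, hps j]

/-- **Traces of powers of a generator whose minimal polynomial is `≡ Y^p - c` modulo depth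
`κ`.** -/
theorem val_trace_gen_pow_le (vE : Valuation E Γ₀) (pb : PowerBasis E F) {κ : Γ₀} (hκ : κ ≤ 1)
    (hvp : vE ((minpoly E pb.gen).natDegree : E) ≤ κ)
    (hc : ∀ j : ℕ, 0 < j → j < (minpoly E pb.gen).natDegree →
      vE ((minpoly E pb.gen).coeff j) ≤ κ)
    (hc0 : vE ((minpoly E pb.gen).coeff 0) ≤ 1) (k : ℕ) :
    vE (Algebra.trace E F (pb.gen ^ k)) ≤ κ := by
  set g := minpoly E pb.gen with hg
  set p := g.natDegree with hp
  have hmonic : g.Monic := minpoly.monic pb.isIntegral_gen
  rcases Nat.eq_zero_or_pos k with rfl | hk1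
  · rw [pow_zero, ← map_one (algebraMap E F), Algebra.trace_algebraMap, pb.finrank,
      ← pb.natDegree_minpoly, nsmul_eq_mul, mul_one]
    exact hvp
  · have hcoeff : ∀ i, i ≤ p → vE (g.coeff (p - i)) ≤ 1 := by
      intro i hi
      rcases Nat.eq_zero_or_pos i with rfl | hi0
      · rw [Nat.sub_zero, hp, hmonic.coeff_natDegree, map_one]
      · rcases lt_or_eq_of_le hi with hlt | rfl
        · exact (hc (p - i) (by omega) (by omega)).trans hκ
        · rw [Nat.sub_self]; exact hc0
    have he : ∀ i, vE (coeffSeq g i) ≤ 1 := by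
      intro i
      unfold coeffSeq
      split_ifs with hi
      · rw [map_mul, val_neg_one_pow, one_mul]
        exact hcoeff i hi
      · rw [map_zero]; exact zero_le_one
    have hke : ∀ i : ℕ, 1 ≤ i → i ≤ k → vE ((i : E) * coeffSeq g i) ≤ κ := by
      intro i hi1 _
      unfold coeffSeq
      split_ifs with hi
      · rw [map_mul, map_mul, val_neg_one_pow, one_mul]
        rcases lt_or_eq_of_le hi with hlt | heq
        · calc vE (i : E) * vE (g.coeff (g.natDegree - i)) ≤ 1 * κ :=
              mul_le_mul' (val_natCast_le_one_ring vE i) (hc _ (by omega) (by omega))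
            _ = κ := one_mul _
        · calc vE (i : E) * vE (g.coeff (g.natDegree - i)) ≤ κ * 1 := by
                refine mul_le_mul' ?_ ?_
                · rw [heq]; exact hvp
                · rw [heq, Nat.sub_self]; exact hc0
            _ = κ := mul_one _
      · rw [mul_zero, map_zero]; exact zero_le
    exact val_psum_le_of_newton vE (isNewton_trace_gen_pow pb k) he hke k hk1 le_rfl

omit [FiniteDimensional E F] [Algebra.IsSeparable E F] in
/-- **The global trace estimate `(H_T)`** from the trace estimates on the powers of a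
generator and a valuation-basis hypothesis (`hVB`: the coefficients of `x` on the power
basis are bounded by `vF x`). -/
theorem val_trace_le_of_valBasis (vE : Valuation E Γ₀) (vF : Valuation F Γ₀)
    (pb : PowerBasis E F) {κ : Γ₀}
    (hT : ∀ k : ℕ, vE (Algebra.trace E F (pb.gen ^ k)) ≤ κ)
    (hVB : ∀ (x : F) (i : Fin pb.dim), vE (pb.basis.repr x i) ≤ vF x) (x : F) :
    vE (Algebra.trace E F x) ≤ κ * vF x := by
  have hx : x = ∑ i, pb.basis.repr x i • pb.gen ^ (i : ℕ) := by
    conv_lhs => rw [← pb.basis.sum_repr x]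
    refine Finset.sum_congr rfl fun i _ => ?_
    rw [pb.coe_basis]
  have htr : Algebra.trace E F x =
      ∑ i, pb.basis.repr x i * Algebra.trace E F (pb.gen ^ (i : ℕ)) := by
    conv_lhs => rw [hx]
    rw [map_sum]
    refine Finset.sum_congr rfl fun i _ => ?_
    rw [map_smul, smul_eq_mul]
  rw [htr]
  refine Valuation.map_sum_le vE fun i _ => ?_
  rw [map_mul, mul_comm]
  exact mul_le_mul' (hT _) (hVB x i)

omit [FiniteDimensional E F] [Algebra.IsSeparable E F] in
/-- The valuation-basis hypothesis from residual independence (`hRI`): if a combination of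
`1, θ, …` with integral coefficients, one of which is a unit, has value `1`, then the
coefficients of any `x` are bounded by `vF x`. -/
theorem valBasis_of_residual_indep (vE : Valuation E Γ₀) (vF : Valuation F Γ₀)
    (hcompat : ∀ a : E, vF (algebraMap E F a) = vE a) (pb : PowerBasis E F)
    (hRI : ∀ c : Fin pb.dim → E, (∀ i, vE (c i) ≤ 1) → (∃ i, vE (c i) = 1) →
      vF (∑ i, c i • pb.gen ^ (i : ℕ)) = 1)
    (x : F) (i : Fin pb.dim) : vE (pb.basis.repr x i) ≤ vF x := by
  classical
  set c : Fin pb.dim → E := fun i => pb.basis.repr x i with hc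
  have hx : x = ∑ i, c i • pb.gen ^ (i : ℕ) := by
    conv_lhs => rw [← pb.basis.sum_repr x]
    refine Finset.sum_congr rfl fun i _ => ?_
    rw [pb.coe_basis]
  obtain ⟨i₀, -, hi₀⟩ := Finset.exists_max_image Finset.univ (fun i => vE (c i)) ⟨i, Finset.mem_univ _⟩
  by_cases hm : c i₀ = 0
  · have : vE (c i) ≤ vE (c i₀) := hi₀ i (Finset.mem_univ _)
    rw [hm, map_zero] at this
    exact this.trans zero_le
  · have hvm : vE (c i₀) ≠ 0 := (Valuation.ne_zero_iff vE).mpr hm
    have h1 := hRI (fun j => c j / c i₀)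
      (fun j => by
        rw [map_div₀]
        exact div_le_one_of_le₀ (hi₀ j (Finset.mem_univ _)) zero_le)
      ⟨i₀, by rw [div_self hm, map_one]⟩
    have hx' : x = algebraMap E F (c i₀) * ∑ j, (c j / c i₀) • pb.gen ^ (j : ℕ) := by
      rw [Finset.mul_sum]
      conv_lhs => rw [hx]
      refine Finset.sum_congr rfl fun j _ => ?_
      rw [Algebra.smul_def, Algebra.smul_def, ← mul_assoc, ← map_mul, mul_div_cancel₀ _ hm]
    have hvx : vF x = vE (c i₀) := by
      rw [hx', map_mul, h1, mul_one, hcompat]
    rw [hvx]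
    exact hi₀ i (Finset.mem_univ _)

end Field

end Fermat.Agent.GF.NormDepth
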