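import Fermat.Agent.GF.NormDepth.Norm
import Fermat.Agent.GF.NormDepth.Trace
import Fermat.Agent.GF.NormDepth.Iterate
import Fermat.Agent.GF.NormDepth.PthPower

/-!
# GATE-F / GF-NORMDEPTH-ALG, file 6: the packaged gain of the norm

`val_norm_sub_one_le_gain` : under the global trace estimate `(H_T)` the norm gains depth by
the factor `max κ δ₀` on the units of depth `≤ δ₀` — the shape `hg₁`/`hg₂` of
`isPow_of_pingpong`.

`val_norm_sub_one_le_gain_of_minpoly` : the same from the structural hypotheses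
(`F = E(θ)`, minimal polynomial `≡ Y^p - c` modulo `p`, residual independence of the powers
of `θ`).
-/

namespace Fermat.Agent.GF.NormDepth

variable {E F : Type*} [Field E] [Field F] [Algebra E F] [FiniteDimensional E F]
  [Algebra.IsSeparable E F]
variable {Γ₀ : Type*} [LinearOrderedCommGroupWithZero Γ₀]

/-- **Depth gain of the norm** in the multiplicative form used by the iteration. -/
theorem val_norm_sub_one_le_gain (vE : Valuation E Γ₀) (vF : Valuation F Γ₀)
    {p : ℕ} (hp2 : 2 ≤ p) (hfr : Module.finrank E F = p) {κ δ₀ : Γ₀} (hκ : κ ≤ 1)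
    (hκ0 : κ ≠ 0) (hvp : vE (p : E) = κ) (hk : ∀ k : ℕ, 0 < k → k < p → vE (k : E) = 1)
    (hT : ∀ x : F, vE (Algebra.trace E F x) ≤ κ * vF x) (hδ₀ : δ₀ ≤ 1)
    (b : F) (hb : vF (b - 1) ≤ δ₀) :
    vE (Algebra.norm E b - 1) ≤ max κ δ₀ * vF (b - 1) := by
  set a := b - 1 with ha
  have hb' : b = 1 + a := by rw [ha]; ring
  have ha1 : vF a ≤ 1 := hb.trans hδ₀
  have h := val_norm_one_add_sub_one_le_of_trace vE vF (by omega) hfr hκ hκ0 hvp hk hT a ha1
  rw [hb']
  refine h.trans (max_le ?_ ?_)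
  · exact mul_le_mul' (le_max_left _ _) le_rfl
  · have hpow : vF a ^ p ≤ vF a ^ 2 := pow_le_pow_right_of_le_one' ha1 hp2
    calc vF a ^ p ≤ vF a ^ 2 := hpow
      _ = vF a * vF a := sq _
      _ ≤ max κ δ₀ * vF a := mul_le_mul' (hb.trans (le_max_right _ _)) le_rfl

/-- **Depth gain of the norm from the structure of the extension**: `F = E(θ)` with minimal
polynomial `≡ Y ^ p - c` modulo `p` (`κ = v p`) and residually independent powers of `θ`. -/
theorem val_norm_sub_one_le_gain_of_minpoly (vE : Valuation E Γ₀) (vF : Valuation F Γ₀)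
    (hcompat : ∀ a : E, vF (algebraMap E F a) = vE a) (pb : PowerBasis E F)
    (hp2 : 2 ≤ (minpoly E pb.gen).natDegree) {κ δ₀ : Γ₀} (hκ : κ ≤ 1) (hκ0 : κ ≠ 0)
    (hvp : vE ((minpoly E pb.gen).natDegree : E) = κ)
    (hk : ∀ k : ℕ, 0 < k → k < (minpoly E pb.gen).natDegree → vE (k : E) = 1)
    (hc : ∀ j : ℕ, 0 < j → j < (minpoly E pb.gen).natDegree →
      vE ((minpoly E pb.gen).coeff j) ≤ κ)
    (hc0 : vE ((minpoly E pb.gen).coeff 0) ≤ 1)
    (hRI : ∀ c : Fin pb.dim → E, (∀ i, vE (c i) ≤ 1) → (∃ i, vE (c i) = 1) →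
      vF (∑ i, c i • pb.gen ^ (i : ℕ)) = 1)
    (hδ₀ : δ₀ ≤ 1) (b : F) (hb : vF (b - 1) ≤ δ₀) :
    vE (Algebra.norm E b - 1) ≤ max κ δ₀ * vF (b - 1) := by
  have hfr : Module.finrank E F = (minpoly E pb.gen).natDegree := by
    rw [pb.finrank, pb.natDegree_minpoly]
  have hT : ∀ x : F, vE (Algebra.trace E F x) ≤ κ * vF x :=
    val_trace_le_of_valBasis vE vF pb
      (val_trace_gen_pow_le vE pb hκ hvp.le hc hc0)
      (valBasis_of_residual_indep vE vF hcompat pb hRI)
  exact val_norm_sub_one_le_gain vE vF hp2 hfr hκ hκ0 hvp hk hT hδ₀ b hb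

end Fermat.Agent.GF.NormDepth
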