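import Mathlib

/-!
# GATE-F / GF-NORMDEPTH-ALG, file 1: Newton bounds

Abstract valuation estimates coming from Newton's identities.

* `IsNewton p e P` : the sequences `e` (elementary symmetric values) and `P` (power sums)
  satisfy Newton's recursion up to index `p`.
* `newton_bound`, `newton_bound_top`, `val_sum_newton_le` : if `v (P j) ≤ κ * δ ^ j`
  then `v (e k) ≤ κ * δ ^ k` for `0 < k < p`, `v (e p) ≤ δ ^ p`, hence
  `v (∑_{1 ≤ k ≤ p} e k) ≤ max (κ * δ) (δ ^ p)`.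
* `val_prod_one_add_sub_one_le` : the same for a finite family `x : ι → L`,
  `card ι = p`: `v (∏ (1 + x i) - 1) ≤ max (κ * δ) (δ ^ p)`.
-/

namespace Fermat.Agent.GF.NormDepth

open Finset

section Seq

variable {R : Type*} [CommRing R] {Γ₀ : Type*} [LinearOrderedCommGroupWithZero Γ₀]

/-- Newton's recursion between "elementary symmetric" values `e` and "power sums" `P`,
up to index `p`. -/
def IsNewton (p : ℕ) (e P : ℕ → R) : Prop :=
  e 0 = 1 ∧ ∀ k : ℕ, 1 ≤ k → k ≤ p →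
    (k : R) * e k = (-1) ^ (k + 1) *
      ∑ a ∈ (antidiagonal k).filter (fun a => a.1 < k), (-1) ^ a.1 * e a.1 * P a.2

theorem val_neg_one_pow (v : Valuation R Γ₀) (n : ℕ) : v ((-1 : R) ^ n) = 1 := by
  rw [map_pow, Valuation.map_neg, map_one, one_pow]

/-- The basic termwise estimate of the right-hand side of Newton's recursion. -/
theorem val_newton_rhs_le (v : Valuation R Γ₀) {e P : ℕ → R} (he0 : e 0 = 1)
    {κ δ : Γ₀} (hκ : κ ≤ 1) {k : ℕ}
    (he : ∀ i : ℕ, 1 ≤ i → i < k → v (e i) ≤ κ * δ ^ i)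
    (hP : ∀ j : ℕ, 1 ≤ j → j < k → v (P j) ≤ κ * δ ^ j)
    (hPk : v (P k) ≤ κ * δ ^ k) :
    v ((-1) ^ (k + 1) *
      ∑ a ∈ (antidiagonal k).filter (fun a => a.1 < k), (-1) ^ a.1 * e a.1 * P a.2)
      ≤ κ * δ ^ k := by
  rw [map_mul, val_neg_one_pow, one_mul]
  refine Valuation.map_sum_le v ?_
  rintro ⟨i, j⟩ hij
  rw [mem_filter, Finset.HasAntidiagonal.mem_antidiagonal] at hij
  obtain ⟨hsum, hlt⟩ := hij
  simp only at hsum hlt ⊢
  rw [map_mul, map_mul, val_neg_one_pow, one_mul]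
  rcases Nat.eq_zero_or_pos i with hi | hi
  · subst hi
    rw [he0, map_one, one_mul]
    have : j = k := by omega
    subst this
    exact hPk
  · have hj1 : 1 ≤ j := by omega
    have hjk : j < k := by omega
    calc v (e i) * v (P j) ≤ (κ * δ ^ i) * (κ * δ ^ j) :=
          mul_le_mul' (he i hi hlt) (hP j hj1 hjk)
      _ = κ * (κ * δ ^ k) := by rw [← hsum, pow_add]; ac_rfl
      _ ≤ 1 * (κ * δ ^ k) := mul_le_mul' hκ le_rfl
      _ = κ * δ ^ k := one_mul _

/-- Newton bound below the top index. -/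
theorem newton_bound (v : Valuation R Γ₀) {p : ℕ} {e P : ℕ → R} (h : IsNewton p e P)
    {κ δ : Γ₀} (hκ : κ ≤ 1) (hk : ∀ k : ℕ, 0 < k → k < p → v (k : R) = 1)
    (hP : ∀ j : ℕ, 1 ≤ j → j < p → v (P j) ≤ κ * δ ^ j) :
    ∀ k : ℕ, 1 ≤ k → k < p → v (e k) ≤ κ * δ ^ k := by
  intro k
  induction k using Nat.strong_induction_on with
  | _ k ih =>
    intro hk1 hkp
    have hrec := h.2 k hk1 hkp.le
    have hb := val_newton_rhs_le v h.1 hκ (k := k)
      (fun i hi hik => ih i hik hi (hik.trans hkp))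
      (fun j hj hjk => hP j hj (hjk.trans hkp)) (hP k hk1 hkp)
    rw [← hrec, map_mul, hk k hk1 hkp, one_mul] at hb
    exact hb

/-- Newton bound at the top index `p`, when `κ = v p ≠ 0`. -/
theorem newton_bound_top (v : Valuation R Γ₀) {p : ℕ} (hp1 : 1 ≤ p) {e P : ℕ → R}
    (h : IsNewton p e P) {κ δ : Γ₀} (hκ : κ ≤ 1) (hκ0 : κ ≠ 0) (hvp : v (p : R) = κ)
    (hk : ∀ k : ℕ, 0 < k → k < p → v (k : R) = 1)
    (hP : ∀ j : ℕ, 1 ≤ j → j ≤ p → v (P j) ≤ κ * δ ^ j) :
    v (e p) ≤ δ ^ p := by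
  have hrec := h.2 p hp1 le_rfl
  have hlow := newton_bound v h hκ hk (fun j hj hjp => hP j hj hjp.le)
  have hb := val_newton_rhs_le v h.1 hκ (k := p) hlow
      (fun j hj hjk => hP j hj hjk.le) (hP p hp1 le_rfl)
  rw [← hrec, map_mul, hvp] at hb
  by_contra hcon
  rw [not_le] at hcon
  have hκpos : 0 < κ := zero_lt_iff.mpr hκ0
  have : κ * δ ^ p < κ * v (e p) := by
    exact (mul_lt_mul_iff_right₀ hκpos).mpr hcon
  exact absurd hb (not_le.mpr this)

/-- The sum of the `e k`, `1 ≤ k ≤ p`, is small. -/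
theorem val_sum_newton_le (v : Valuation R Γ₀) {p : ℕ} {e : ℕ → R} {κ δ : Γ₀} (hδ : δ ≤ 1)
    (hlow : ∀ k : ℕ, 1 ≤ k → k < p → v (e k) ≤ κ * δ ^ k) (htop : v (e p) ≤ δ ^ p) :
    v (∑ k ∈ Icc 1 p, e k) ≤ max (κ * δ) (δ ^ p) := by
  refine Valuation.map_sum_le v ?_
  intro k hk
  rw [mem_Icc] at hk
  rcases lt_or_eq_of_le hk.2 with hlt | rfl
  · refine le_max_of_le_left ((hlow k hk.1 hlt).trans ?_)
    refine mul_le_mul' le_rfl ?_
    calc δ ^ k ≤ δ ^ 1 := pow_le_pow_right_of_le_one' hδ hk.1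
      _ = δ := pow_one δ
  · exact le_max_of_le_right htop

end Seq

section Family

variable {L : Type*} [CommRing L] {Γ₀ : Type*} [LinearOrderedCommGroupWithZero Γ₀]
variable {ι : Type*} [Fintype ι]

/-- value of the `k`-th elementary symmetric polynomial on a family -/
noncomputable def esymmVal (x : ι → L) (k : ℕ) : L :=
  ∑ t ∈ powersetCard k (univ : Finset ι), ∏ i ∈ t, x i

/-- value of the `j`-th power sum on a family -/
def psumVal (x : ι → L) (j : ℕ) : L := ∑ i, x i ^ j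

theorem aeval_esymm_eq_esymmVal (x : ι → L) (k : ℕ) :
    MvPolynomial.aeval x (MvPolynomial.esymm ι L k) = esymmVal x k := by
  simp [MvPolynomial.esymm, esymmVal, map_sum, map_prod]

theorem aeval_psum_eq_psumVal (x : ι → L) (j : ℕ) :
    MvPolynomial.aeval x (MvPolynomial.psum ι L j) = psumVal x j := by
  simp [MvPolynomial.psum, psumVal, map_sum, map_pow]

theorem esymmVal_zero (x : ι → L) : esymmVal x 0 = 1 := by
  simp [esymmVal]

theorem esymmVal_card (x : ι → L) : esymmVal x (Fintype.card ι) = ∏ i, x i := by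
  unfold esymmVal
  rw [← Finset.card_univ, Finset.powersetCard_self, Finset.sum_singleton]

/-- Newton's identities for a family of elements. -/
theorem isNewton_family (x : ι → L) (p : ℕ) : IsNewton p (esymmVal x) (psumVal x) := by
  refine ⟨esymmVal_zero x, fun k _ _ => ?_⟩
  have h := congrArg (MvPolynomial.aeval x) (MvPolynomial.mul_esymm_eq_sum ι L k)
  simp only [map_mul, map_natCast, map_pow, map_neg, map_one, map_sum,
    aeval_esymm_eq_esymmVal, aeval_psum_eq_psumVal] at h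
  exact h

/-- `∏ (1 + x i) = ∑_{k ≤ card} e_k(x)`. -/
theorem prod_one_add_eq_sum_esymmVal (x : ι → L) :
    ∏ i, (1 + x i) = ∑ k ∈ range (Fintype.card ι + 1), esymmVal x k := by
  classical
  rw [Finset.prod_one_add, ← Finset.card_univ]
  have h := Finset.powerset_card_disjiUnion (univ : Finset ι)
  rw [h]
  exact Finset.sum_disjiUnion _ _ _

theorem prod_one_add_sub_one_eq (x : ι → L) :
    ∏ i, (1 + x i) - 1 = ∑ k ∈ Icc 1 (Fintype.card ι), esymmVal x k := by
  rw [prod_one_add_eq_sum_esymmVal, Finset.sum_range_succ', esymmVal_zero, add_sub_cancel_right]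
  rw [Finset.sum_bij (fun k _ => k + 1)]
  · intro k hk
    rw [mem_range] at hk
    rw [mem_Icc]
    omega
  · intro a _ b _ hab
    omega
  · intro b hb
    rw [mem_Icc] at hb
    exact ⟨b - 1, by rw [mem_range]; omega, by omega⟩
  · intro k _
    rfl

/-- **Newton depth lemma** for a finite family with `p` members: power sums of depth
`κ δ^j` (`κ = v p`) force `∏ (1 + x i)` to be `1` up to depth `max (κ δ) (δ ^ p)`. -/
theorem val_prod_one_add_sub_one_le (v : Valuation L Γ₀) {p : ℕ} (hp1 : 1 ≤ p)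
    (hcard : Fintype.card ι = p) (x : ι → L) {κ δ : Γ₀} (hκ : κ ≤ 1) (hκ0 : κ ≠ 0)
    (hvp : v (p : L) = κ) (hδ : δ ≤ 1)
    (hk : ∀ k : ℕ, 0 < k → k < p → v (k : L) = 1)
    (hP : ∀ j : ℕ, 1 ≤ j → j ≤ p → v (∑ i, x i ^ j) ≤ κ * δ ^ j) :
    v (∏ i, (1 + x i) - 1) ≤ max (κ * δ) (δ ^ p) := by
  have hN := isNewton_family x p
  rw [prod_one_add_sub_one_eq, hcard]
  exact val_sum_newton_le v hδ
    (newton_bound v hN hκ hk (fun j hj hjp => hP j hj hjp.le))
    (newton_bound_top v hp1 hN hκ hκ0 hvp hk hP)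

/-- Variant with an arbitrary `κ ≤ 1` (a gain weaker than `v p`): the top coefficient
`∏ x i` must then be bounded separately. -/
theorem val_prod_one_add_sub_one_le' (v : Valuation L Γ₀) {p : ℕ}
    (hcard : Fintype.card ι = p) (x : ι → L) {κ δ : Γ₀} (hκ : κ ≤ 1) (hδ : δ ≤ 1)
    (hk : ∀ k : ℕ, 0 < k → k < p → v (k : L) = 1)
    (hP : ∀ j : ℕ, 1 ≤ j → j < p → v (∑ i, x i ^ j) ≤ κ * δ ^ j)
    (htop : v (∏ i, x i) ≤ δ ^ p) :
    v (∏ i, (1 + x i) - 1) ≤ max (κ * δ) (δ ^ p) := by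
  subst hcard
  have hN := isNewton_family x (Fintype.card ι)
  rw [prod_one_add_sub_one_eq]
  refine val_sum_newton_le v hδ (newton_bound v hN hκ hk hP) ?_
  rw [esymmVal_card]
  exact htop

end Family

end Fermat.Agent.GF.NormDepth
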