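import Fermat.Agent.GF.NormDepth.Newton

/-!
# GATE-F / GF-NORMDEPTH-ALG, file 2: depth of `N(1 + a)`

`F / E` a finite separable field extension of degree `p`, `vE` a valuation on `E`.
If the traces of the powers of `a : F` satisfy `vE (Tr (a ^ j)) ≤ κ * δ ^ j`
(`1 ≤ j ≤ p`, `κ = vE p`, multiplicative notation), then
`vE (N (1 + a) - 1) ≤ max (κ * δ) (δ ^ p)`.
-/

namespace Fermat.Agent.GF.NormDepth

open Finset

section Subfield

variable {L : Type*} [Field L]

/-- If the power sums lie in a subfield and `1, …, p` are invertible, then so do the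
elementary symmetric values (Newton's recursion). -/
theorem isNewton_mem_subfield (S : Subfield L) {p : ℕ} {e P : ℕ → L} (h : IsNewton p e P)
    (hP : ∀ j, P j ∈ S) (hk : ∀ k : ℕ, 1 ≤ k → k ≤ p → (k : L) ≠ 0) :
    ∀ k, k ≤ p → e k ∈ S := by
  intro k
  induction k using Nat.strong_induction_on with
  | _ k ih =>
    intro hkp
    rcases Nat.eq_zero_or_pos k with rfl | hk1
    · rw [h.1]; exact S.one_mem
    · have hrec := h.2 k hk1 hkp
      have hk0 := hk k hk1 hkp
      have : e k = (k : L)⁻¹ * ((-1) ^ (k + 1) *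
          ∑ a ∈ (antidiagonal k).filter (fun a => a.1 < k), (-1) ^ a.1 * e a.1 * P a.2) := by
        rw [← hrec, ← mul_assoc, inv_mul_cancel₀ hk0, one_mul]
      rw [this]
      refine S.mul_mem (S.inv_mem (natCast_mem S k)) (S.mul_mem ?_ ?_)
      · exact S.pow_mem (S.neg_mem S.one_mem) _
      · refine S.sum_mem ?_
        rintro ⟨i, j⟩ hij
        rw [mem_filter] at hij
        exact S.mul_mem (S.mul_mem (S.pow_mem (S.neg_mem S.one_mem) _)
          (ih i hij.2 (hij.2.le.trans hkp))) (hP j)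

end Subfield

section Ext

variable {E F : Type*} [Field E] [Field F] [Algebra E F] [FiniteDimensional E F]
  [Algebra.IsSeparable E F]
variable {Γ₀ : Type*} [LinearOrderedCommGroupWithZero Γ₀]

/-- Pulling Newton's recursion for the conjugates of `a` back to the base field: there are
`e k : E` with `e 0 = 1`, Newton's recursion against `Tr (a ^ j)`, and
`N (1 + a) - 1 = ∑_{1 ≤ k ≤ p} e k`, with `e p = N a`. -/
theorem exists_newton_norm {p : ℕ} (hfr : Module.finrank E F = p) (a : F)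
    (hk : ∀ k : ℕ, 1 ≤ k → k ≤ p → (k : E) ≠ 0) :
    ∃ e : ℕ → E, IsNewton p e (fun j => Algebra.trace E F (a ^ j)) ∧
      Algebra.norm E (1 + a) - 1 = ∑ k ∈ Icc 1 p, e k ∧ e p = Algebra.norm E a := by
  classical
  let Ω := AlgebraicClosure E
  let x : (F →ₐ[E] Ω) → Ω := fun σ => σ a
  have hcard : Fintype.card (F →ₐ[E] Ω) = p := by rw [AlgHom.card, hfr]
  have hN := isNewton_family x p
  have hps : ∀ j, psumVal x j = algebraMap E Ω (Algebra.trace E F (a ^ j)) := by
    intro j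
    rw [trace_eq_sum_embeddings Ω]
    simp [psumVal, x, map_pow]
  have hinj : Function.Injective (algebraMap E Ω) := (algebraMap E Ω).injective
  have hk' : ∀ k : ℕ, 1 ≤ k → k ≤ p → (k : Ω) ≠ 0 := by
    intro k h1 h2 h0
    apply hk k h1 h2
    apply hinj
    rw [map_natCast, map_zero]
    exact h0
  have hmem : ∀ k, k ≤ p → esymmVal x k ∈ (algebraMap E Ω).fieldRange :=
    isNewton_mem_subfield _ hN (fun j => ⟨_, (hps j).symm⟩) hk'
  choose f hf using hmem
  let e : ℕ → E := fun k => if h : k ≤ p then f k h else 0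
  have he : ∀ k, k ≤ p → algebraMap E Ω (e k) = esymmVal x k := by
    intro k hkp
    simp only [e, dif_pos hkp]
    exact hf k hkp
  refine ⟨e, ⟨?_, ?_⟩, ?_, ?_⟩
  · apply hinj
    rw [he 0 (Nat.zero_le _), hN.1, map_one]
  · intro k hk1 hkp
    apply hinj
    have hrec := hN.2 k hk1 hkp
    rw [map_mul, map_natCast, he k hkp, hrec, map_mul, map_pow, map_neg, map_one, map_sum]
    congr 1
    refine Finset.sum_congr rfl ?_
    rintro ⟨i, j⟩ hij
    rw [mem_filter] at hij
    rw [map_mul, map_mul, map_pow, map_neg, map_one, he i (hij.2.le.trans hkp), hps j]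
  · apply hinj
    rw [map_sub, map_one, Algebra.norm_eq_prod_embeddings E Ω, map_sum]
    have h1 : ∏ σ : F →ₐ[E] Ω, σ (1 + a) = ∏ σ : F →ₐ[E] Ω, (1 + x σ) := by
      refine Finset.prod_congr rfl fun σ _ => ?_
      rw [map_add, map_one]
    rw [h1, prod_one_add_sub_one_eq, hcard]
    refine Finset.sum_congr rfl fun k hk => ?_
    rw [mem_Icc] at hk
    exact (he k hk.2).symm
  · apply hinj
    rw [he p le_rfl, Algebra.norm_eq_prod_embeddings E Ω, ← hcard, esymmVal_card]

/-- **Depth of the norm of `1 + a`**, `κ = vE p ≠ 0`: only trace estimates are needed. -/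
theorem val_norm_one_add_sub_one_le (vE : Valuation E Γ₀) {p : ℕ} (hp1 : 1 ≤ p)
    (hfr : Module.finrank E F = p) (a : F) {κ δ : Γ₀} (hκ : κ ≤ 1) (hκ0 : κ ≠ 0)
    (hvp : vE (p : E) = κ) (hδ : δ ≤ 1)
    (hk : ∀ k : ℕ, 0 < k → k < p → vE (k : E) = 1)
    (hT : ∀ j : ℕ, 1 ≤ j → j ≤ p → vE (Algebra.trace E F (a ^ j)) ≤ κ * δ ^ j) :
    vE (Algebra.norm E (1 + a) - 1) ≤ max (κ * δ) (δ ^ p) := by
  have hk0 : ∀ k : ℕ, 1 ≤ k → k ≤ p → (k : E) ≠ 0 := by
    intro k h1 h2 h0
    rcases lt_or_eq_of_le h2 with hlt | rfl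
    · have := hk k h1 hlt
      rw [h0, map_zero] at this
      exact zero_ne_one this
    · rw [h0, map_zero] at hvp
      exact hκ0 hvp.symm
  obtain ⟨e, hN, hsum, -⟩ := exists_newton_norm hfr a hk0
  rw [hsum]
  exact val_sum_newton_le vE hδ
    (newton_bound vE hN hκ hk (fun j hj hjp => hT j hj hjp.le))
    (newton_bound_top vE hp1 hN hκ hκ0 hvp hk hT)

/-- Variant with an arbitrary gain `κ ≤ 1`: the norm of `a` must be bounded separately. -/
theorem val_norm_one_add_sub_one_le' (vE : Valuation E Γ₀) {p : ℕ}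
    (hfr : Module.finrank E F = p) (a : F) {κ δ : Γ₀} (hκ : κ ≤ 1) (hδ : δ ≤ 1)
    (hp0 : (p : E) ≠ 0)
    (hk : ∀ k : ℕ, 0 < k → k < p → vE (k : E) = 1)
    (hT : ∀ j : ℕ, 1 ≤ j → j < p → vE (Algebra.trace E F (a ^ j)) ≤ κ * δ ^ j)
    (hNa : vE (Algebra.norm E a) ≤ δ ^ p) :
    vE (Algebra.norm E (1 + a) - 1) ≤ max (κ * δ) (δ ^ p) := by
  have hk0 : ∀ k : ℕ, 1 ≤ k → k ≤ p → (k : E) ≠ 0 := by
    intro k h1 h2 h0
    rcases lt_or_eq_of_le h2 with hlt | rfl
    · have := hk k h1 hlt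
      rw [h0, map_zero] at this
      exact zero_ne_one this
    · exact hp0 h0
  obtain ⟨e, hN, hsum, hep⟩ := exists_newton_norm hfr a hk0
  rw [hsum]
  refine val_sum_newton_le vE hδ (newton_bound vE hN hκ hk hT) ?_
  rw [hep]
  exact hNa

/-- Corollary in the form used for a pair of compatible valuations: a global trace
estimate `vE (Tr x) ≤ κ * vF x` gives the depth gain of the norm. -/
theorem val_norm_one_add_sub_one_le_of_trace (vE : Valuation E Γ₀) (vF : Valuation F Γ₀)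
    {p : ℕ} (hp1 : 1 ≤ p) (hfr : Module.finrank E F = p) {κ : Γ₀} (hκ : κ ≤ 1) (hκ0 : κ ≠ 0)
    (hvp : vE (p : E) = κ) (hk : ∀ k : ℕ, 0 < k → k < p → vE (k : E) = 1)
    (hT : ∀ x : F, vE (Algebra.trace E F x) ≤ κ * vF x)
    (a : F) (ha : vF a ≤ 1) :
    vE (Algebra.norm E (1 + a) - 1) ≤ max (κ * vF a) (vF a ^ p) := by
  refine val_norm_one_add_sub_one_le vE hp1 hfr a hκ hκ0 hvp ha hk ?_
  intro j _ _
  have h := hT (a ^ j)
  rw [vF.map_pow] at h
  exact h

end Ext

end Fermat.Agent.GF.NormDepth
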